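/-
CFT / SC : smooth ("level constant") low degree cohomology of an abstract group `G` equipped
with a system of levels `L : Lev G` (think: open subgroups of a profinite group).

Everything is UNBUNDLED: coefficients are `ρ : Representation k G V` (for `A : Rep k G` use `A.ρ`),
`k` any commutative ring (`k = ℤ` and `k = ZMod p` are both needed).
The shapes are the same as in the prelude (`IsLevelConstantS₁`, `continuousH2`, ...).
-/
import Mathlib

set_option autoImplicit false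

namespace Fermat.Agent.CFT.SC

noncomputable section

/-- A system of levels on a group: a nonempty directed set of finite index subgroups, in which the
normal ones are cofinal. -/
structure Lev (G : Type*) [Group G] where
  sets : Set (Subgroup G)
  nonempty : sets.Nonempty
  directed : ∀ U ∈ sets, ∀ V ∈ sets, ∃ W ∈ sets, W ≤ U ∧ W ≤ V
  normal : ∀ U ∈ sets, ∃ W ∈ sets, W ≤ U ∧ W.Normal
  finiteIndex : ∀ U ∈ sets, U.FiniteIndex

variable {k : Type*} [CommRing k] {G : Type*} [Group G]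

/-- `H` is open: it contains a level. -/
def Lev.IsOpen (L : Lev G) (H : Subgroup G) : Prop := ∃ U ∈ L.sets, U ≤ H

/-- level constant functions of one variable (same shape as the prelude). -/
def LC1 (L : Lev G) {X : Type*} (f : G → X) : Prop :=
  ∃ U ∈ L.sets, ∀ g s : G, s ∈ U → f (g * s) = f g

/-- level constant functions of two variables (same shape as the prelude). -/
def LC2 (L : Lev G) {X : Type*} (f : G × G → X) : Prop :=
  ∃ U ∈ L.sets, ∀ g g' s s' : G, s ∈ U → s' ∈ U → f (g * s, g' * s') = f (g, g')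

lemma LC1.comp {L : Lev G} {X Y : Type*} {f : G → X} (hf : LC1 L f) (φ : X → Y) :
    LC1 L (φ ∘ f) := by
  obtain ⟨U, hU, h⟩ := hf
  exact ⟨U, hU, fun g s hs => by simp only [Function.comp_apply, h g s hs]⟩

lemma LC2.comp {L : Lev G} {X Y : Type*} {f : G × G → X} (hf : LC2 L f) (φ : X → Y) :
    LC2 L (φ ∘ f) := by
  obtain ⟨U, hU, h⟩ := hf
  exact ⟨U, hU, fun g g' s s' hs hs' => by simp only [Function.comp_apply, h g g' s s' hs hs']⟩

lemma LC1.map₂ {L : Lev G} {X Y Z : Type*} {f : G → X} {f' : G → Y} (hf : LC1 L f)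
    (hf' : LC1 L f') (φ : X → Y → Z) : LC1 L (fun g => φ (f g) (f' g)) := by
  obtain ⟨U, hU, h⟩ := hf
  obtain ⟨U', hU', h'⟩ := hf'
  obtain ⟨W, hW, h1, h2⟩ := L.directed U hU U' hU'
  exact ⟨W, hW, fun g s hs => by simp only [h g s (h1 hs), h' g s (h2 hs)]⟩

lemma LC2.map₂ {L : Lev G} {X Y Z : Type*} {f : G × G → X} {f' : G × G → Y} (hf : LC2 L f)
    (hf' : LC2 L f') (φ : X → Y → Z) : LC2 L (fun g => φ (f g) (f' g)) := by
  obtain ⟨U, hU, h⟩ := hf
  obtain ⟨U', hU', h'⟩ := hf'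
  obtain ⟨W, hW, h1, h2⟩ := L.directed U hU U' hU'
  exact ⟨W, hW, fun g g' s s' hs hs' => by
    simp only [h g g' s s' (h1 hs) (h1 hs'), h' g g' s s' (h2 hs) (h2 hs')]⟩

lemma LC1.const (L : Lev G) {X : Type*} (x : X) : LC1 L (fun _ : G => x) := by
  obtain ⟨U, hU⟩ := L.nonempty
  exact ⟨U, hU, fun _ _ _ => rfl⟩

lemma LC2.const (L : Lev G) {X : Type*} (x : X) : LC2 L (fun _ : G × G => x) := by
  obtain ⟨U, hU⟩ := L.nonempty
  exact ⟨U, hU, fun _ _ _ _ _ _ => rfl⟩

section cochains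

variable (k) (L : Lev G) (V : Type*) [AddCommGroup V] [Module k V]

/-- level constant 1-cochains -/
def C1 : Submodule k (G → V) where
  carrier := {f | LC1 L f}
  add_mem' hf hf' := hf.map₂ hf' (· + ·)
  zero_mem' := LC1.const L (0 : V)
  smul_mem' c _ hf := hf.comp (c • ·)

/-- level constant 2-cochains -/
def C2 : Submodule k (G × G → V) where
  carrier := {f | LC2 L f}
  add_mem' hf hf' := hf.map₂ hf' (· + ·)
  zero_mem' := LC2.const L (0 : V)
  smul_mem' c _ hf := hf.comp (c • ·)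

variable {k L V}

lemma mem_C1_iff (f : G → V) : f ∈ C1 k L V ↔ LC1 L f := Iff.rfl
lemma mem_C2_iff (f : G × G → V) : f ∈ C2 k L V ↔ LC2 L f := Iff.rfl

end cochains

section cohomology

variable {V : Type*} [AddCommGroup V] [Module k V] (ρ : Representation k G V)

/-- `m ↦ (g ↦ g m - m)` -/
def d0 : V →ₗ[k] (G → V) where
  toFun m g := ρ g m - m
  map_add' x y := funext fun g => by simp only [map_add, add_sub_add_comm]; rfl
  map_smul' r x := funext fun g => by simp [smul_sub]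

/-- `f ↦ ((g,h) ↦ g f(h) - f(gh) + f(g))` -/
def d1 : (G → V) →ₗ[k] (G × G → V) where
  toFun f g := ρ g.1 (f g.2) - f (g.1 * g.2) + f g.1
  map_add' x y := funext fun g => by
    simp only [Pi.add_apply, map_add]; abel
  map_smul' r x := funext fun g => by
    simp [smul_add, smul_sub]

/-- `f ↦ ((g,h,j) ↦ g f(h,j) - f(gh,j) + f(g,hj) - f(g,h))` -/
def d2 : (G × G → V) →ₗ[k] (G × G × G → V) where
  toFun f g :=
    ρ g.1 (f (g.2.1, g.2.2)) - f (g.1 * g.2.1, g.2.2) + f (g.1, g.2.1 * g.2.2) - f (g.1, g.2.1)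
  map_add' x y := funext fun g => by
    simp only [Pi.add_apply, map_add]; abel
  map_smul' r x := funext fun g => by
    simp [smul_add, smul_sub]

@[simp] lemma d0_apply (m : V) (g : G) : d0 ρ m g = ρ g m - m := rfl
@[simp] lemma d1_apply (f : G → V) (g h : G) : d1 ρ f (g, h) = ρ g (f h) - f (g * h) + f g := rfl
@[simp] lemma d2_apply (f : G × G → V) (g h j : G) :
    d2 ρ f (g, h, j) = ρ g (f (h, j)) - f (g * h, j) + f (g, h * j) - f (g, h) := rfl

lemma d1_d0 (m : V) : d1 ρ (d0 ρ m) = 0 := by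
  funext ⟨g, h⟩
  simp only [d1_apply, d0_apply, map_sub, map_mul, Module.End.mul_apply, Pi.zero_apply]
  abel

lemma d2_d1 (f : G → V) : d2 ρ (d1 ρ f) = 0 := by
  funext ⟨g, h, j⟩
  simp only [d2_apply, d1_apply, map_sub, map_add, map_mul, Module.End.mul_apply, Pi.zero_apply,
    mul_assoc]
  abel

variable (L : Lev G)

/-- the representation is smooth (discrete) for the level system -/
def IsSmooth : Prop := ∀ v : V, ∃ U ∈ L.sets, ∀ s ∈ U, ρ s v = v

/-- some level acts trivially -/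
def IsTrivOn (U : Subgroup G) : Prop := ∀ s ∈ U, ∀ v : V, ρ s v = v

/-- level constant 1-cocycles -/
def Z1 : Submodule k (G → V) := LinearMap.ker (d1 ρ) ⊓ C1 k L V
/-- 1-coboundaries -/
def B1 : Submodule k (G → V) := LinearMap.range (d0 ρ)
/-- level constant 2-cocycles -/
def Z2 : Submodule k (G × G → V) := LinearMap.ker (d2 ρ) ⊓ C2 k L V
/-- coboundaries of level constant 1-cochains -/
def B2 : Submodule k (G × G → V) := (C1 k L V).map (d1 ρ)

/-- `H⁰ = V^G` -/
abbrev H0 : Submodule k V := ρ.invariants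
/-- `H¹(G, V)` (level constant cocycles modulo coboundaries) -/
abbrev H1 : Type _ := ↥(Z1 ρ L) ⧸ (B1 ρ).comap (Z1 ρ L).subtype
/-- `H²(G, V)` (level constant cocycles modulo coboundaries of level constant cochains) -/
abbrev H2 : Type _ := ↥(Z2 ρ L) ⧸ (B2 ρ L).comap (Z2 ρ L).subtype

abbrev H1π : ↥(Z1 ρ L) →ₗ[k] H1 ρ L := Submodule.mkQ _
abbrev H2π : ↥(Z2 ρ L) →ₗ[k] H2 ρ L := Submodule.mkQ _

variable {ρ L}

lemma mem_Z1_iff (f : G → V) :
    f ∈ Z1 ρ L ↔ (∀ g h : G, f (g * h) = ρ g (f h) + f g) ∧ LC1 L f := by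
  simp only [Z1, Submodule.mem_inf, LinearMap.mem_ker, mem_C1_iff, funext_iff, Prod.forall,
    d1_apply, Pi.zero_apply]
  refine and_congr_left fun _ => forall₂_congr fun g h => ?_
  rw [sub_add_eq_add_sub, sub_eq_zero, eq_comm]

lemma mem_Z2_iff (f : G × G → V) :
    f ∈ Z2 ρ L ↔ (∀ g h j : G, ρ g (f (h, j)) - f (g * h, j) + f (g, h * j) - f (g, h) = 0)
      ∧ LC2 L f := by
  simp only [Z2, Submodule.mem_inf, LinearMap.mem_ker, mem_C2_iff, funext_iff, Prod.forall,
    d2_apply, Pi.zero_apply]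

lemma mem_B1_iff (f : G → V) : f ∈ B1 ρ ↔ ∃ m : V, ∀ g, f g = ρ g m - m := by
  simp only [B1, LinearMap.mem_range, funext_iff, d0_apply, eq_comm]

lemma mem_B2_iff (f : G × G → V) : f ∈ B2 ρ L ↔ ∃ x : G → V, LC1 L x ∧ d1 ρ x = f := by
  simp only [B2, Submodule.mem_map, mem_C1_iff]

lemma H1π_eq_zero_iff (c : ↥(Z1 ρ L)) : H1π ρ L c = 0 ↔ (c : G → V) ∈ B1 ρ := by
  simp [Submodule.Quotient.mk_eq_zero, Submodule.mem_comap]

lemma H2π_eq_zero_iff (c : ↥(Z2 ρ L)) : H2π ρ L c = 0 ↔ (c : G × G → V) ∈ B2 ρ L := by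
  simp [Submodule.Quotient.mk_eq_zero, Submodule.mem_comap]

lemma H1π_surjective : Function.Surjective (H1π ρ L) := Submodule.mkQ_surjective _
lemma H2π_surjective : Function.Surjective (H2π ρ L) := Submodule.mkQ_surjective _

end cohomology

section functoriality

variable {D : Type*} [Group D]

/-- `φ : D → G` is continuous for the level systems -/
def Lev.Cont (LD : Lev D) (LG : Lev G) (φ : D →* G) : Prop :=
  ∀ U ∈ LG.sets, ∃ W ∈ LD.sets, ∀ s ∈ W, φ s ∈ U

lemma Lev.cont_id (L : Lev G) : L.Cont L (MonoidHom.id G) := fun U hU => ⟨U, hU, fun _ h => h⟩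

lemma LC1.comp_hom {LD : Lev D} {LG : Lev G} {φ : D →* G} (hφ : LD.Cont LG φ) {X : Type*}
    {f : G → X} (hf : LC1 LG f) : LC1 LD (fun d => f (φ d)) := by
  obtain ⟨U, hU, h⟩ := hf
  obtain ⟨W, hW, hWU⟩ := hφ U hU
  exact ⟨W, hW, fun g s hs => by simp only [map_mul]; rw [h _ _ (hWU s hs)]⟩

lemma LC2.comp_hom {LD : Lev D} {LG : Lev G} {φ : D →* G} (hφ : LD.Cont LG φ) {X : Type*}
    {f : G × G → X} (hf : LC2 LG f) : LC2 LD (fun d : D × D => f (φ d.1, φ d.2)) := by
  obtain ⟨U, hU, h⟩ := hf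
  obtain ⟨W, hW, hWU⟩ := hφ U hU
  exact ⟨W, hW, fun g g' s s' hs hs' => by
    simp only [map_mul]; rw [h _ _ _ _ (hWU s hs) (hWU s' hs')]⟩

variable {V W : Type*} [AddCommGroup V] [Module k V] [AddCommGroup W] [Module k W]

/-- `f : V → W` intertwines `ρ` (a representation of `G`) and `σ` (of `D`) along `φ : D → G`. -/
def Inter (φ : D →* G) (ρ : Representation k G V) (σ : Representation k D W) (f : V →ₗ[k] W) :
    Prop := ∀ (d : D) (v : V), f (ρ (φ d) v) = σ d (f v)

/-- `c ↦ f ∘ c ∘ φ` on 1-cochains -/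
def cmap1 (φ : D →* G) (f : V →ₗ[k] W) : (G → V) →ₗ[k] (D → W) where
  toFun c d := f (c (φ d))
  map_add' x y := funext fun d => by simp
  map_smul' r x := funext fun d => by simp

/-- `c ↦ f ∘ c ∘ (φ × φ)` on 2-cochains -/
def cmap2 (φ : D →* G) (f : V →ₗ[k] W) : (G × G → V) →ₗ[k] (D × D → W) where
  toFun c d := f (c (φ d.1, φ d.2))
  map_add' x y := funext fun d => by simp
  map_smul' r x := funext fun d => by simp

@[simp] lemma cmap1_apply (φ : D →* G) (f : V →ₗ[k] W) (c : G → V) (d : D) :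
    cmap1 φ f c d = f (c (φ d)) := rfl
@[simp] lemma cmap2_apply (φ : D →* G) (f : V →ₗ[k] W) (c : G × G → V) (d e : D) :
    cmap2 φ f c (d, e) = f (c (φ d, φ e)) := rfl

variable {φ : D →* G} {ρ : Representation k G V} {σ : Representation k D W} {f : V →ₗ[k] W}
  {LD : Lev D} {LG : Lev G}

lemma cmap1_d0 (hf : Inter φ ρ σ f) (m : V) : cmap1 φ f (d0 ρ m) = d0 σ (f m) := by
  funext d; simp [hf d m]

lemma cmap2_d1 (hf : Inter φ ρ σ f) (c : G → V) : cmap2 φ f (d1 ρ c) = d1 σ (cmap1 φ f c) := by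
  funext ⟨d, e⟩; simp [hf d]

lemma cmap1_mem_C1 (hφ : LD.Cont LG φ) {c : G → V} (hc : c ∈ C1 k LG V) :
    cmap1 φ f c ∈ C1 k LD W :=
  (LC1.comp_hom hφ hc).comp f

lemma cmap2_mem_C2 (hφ : LD.Cont LG φ) {c : G × G → V} (hc : c ∈ C2 k LG V) :
    cmap2 φ f c ∈ C2 k LD W :=
  (LC2.comp_hom hφ hc).comp f

lemma cmap1_mem_Z1 (hφ : LD.Cont LG φ) (hf : Inter φ ρ σ f) {c : G → V} (hc : c ∈ Z1 ρ LG) :
    cmap1 φ f c ∈ Z1 σ LD := by
  refine ⟨?_, cmap1_mem_C1 hφ hc.2⟩
  show d1 σ (cmap1 φ f c) = 0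
  rw [← cmap2_d1 hf, LinearMap.mem_ker.1 hc.1, map_zero]

lemma cmap2_mem_Z2 (hφ : LD.Cont LG φ) (hf : Inter φ ρ σ f) {c : G × G → V} (hc : c ∈ Z2 ρ LG) :
    cmap2 φ f c ∈ Z2 σ LD := by
  refine (mem_Z2_iff _).2 ⟨fun g h j => ?_, cmap2_mem_C2 hφ hc.2⟩
  have := ((mem_Z2_iff _).1 hc).1 (φ g) (φ h) (φ j)
  simp only [cmap2_apply, ← hf g, map_mul, ← map_sub, ← map_add, this, map_zero]

lemma cmap1_mem_B1 (hf : Inter φ ρ σ f) {c : G → V} (hc : c ∈ B1 ρ) : cmap1 φ f c ∈ B1 σ := by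
  obtain ⟨m, rfl⟩ := hc
  exact ⟨f m, (cmap1_d0 hf m).symm⟩

lemma cmap2_mem_B2 (hφ : LD.Cont LG φ) (hf : Inter φ ρ σ f) {c : G × G → V} (hc : c ∈ B2 ρ LG) :
    cmap2 φ f c ∈ B2 σ LD := by
  obtain ⟨x, hx, rfl⟩ := hc
  exact ⟨cmap1 φ f x, cmap1_mem_C1 hφ hx, (cmap2_d1 hf x).symm⟩

/-- functoriality of `H⁰` -/
def H0map (hf : Inter φ ρ σ f) : H0 ρ →ₗ[k] H0 σ :=
  f.restrict (p := H0 ρ) (q := H0 σ) (fun v hv d => by rw [← hf d v, hv (φ d)])

/-- functoriality of `Z¹` -/
def Z1map (hφ : LD.Cont LG φ) (hf : Inter φ ρ σ f) : ↥(Z1 ρ LG) →ₗ[k] ↥(Z1 σ LD) :=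
  (cmap1 φ f).restrict (fun _ hc => cmap1_mem_Z1 hφ hf hc)

/-- functoriality of `Z²` -/
def Z2map (hφ : LD.Cont LG φ) (hf : Inter φ ρ σ f) : ↥(Z2 ρ LG) →ₗ[k] ↥(Z2 σ LD) :=
  (cmap2 φ f).restrict (fun _ hc => cmap2_mem_Z2 hφ hf hc)

/-- functoriality of `H¹` -/
def H1map (hφ : LD.Cont LG φ) (hf : Inter φ ρ σ f) : H1 ρ LG →ₗ[k] H1 σ LD :=
  Submodule.mapQ _ _ (Z1map hφ hf) (fun _ hc => cmap1_mem_B1 hf hc)

/-- functoriality of `H²` -/
def H2map (hφ : LD.Cont LG φ) (hf : Inter φ ρ σ f) : H2 ρ LG →ₗ[k] H2 σ LD :=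
  Submodule.mapQ _ _ (Z2map hφ hf) (fun _ hc => cmap2_mem_B2 hφ hf hc)

@[simp] lemma H0map_coe (hf : Inter φ ρ σ f) (v : H0 ρ) : (H0map hf v : W) = f v := rfl
@[simp] lemma Z1map_coe (hφ : LD.Cont LG φ) (hf : Inter φ ρ σ f) (c : ↥(Z1 ρ LG)) :
    (Z1map hφ hf c : D → W) = cmap1 φ f c := rfl
@[simp] lemma Z2map_coe (hφ : LD.Cont LG φ) (hf : Inter φ ρ σ f) (c : ↥(Z2 ρ LG)) :
    (Z2map hφ hf c : D × D → W) = cmap2 φ f c := rfl
@[simp] lemma H1map_π (hφ : LD.Cont LG φ) (hf : Inter φ ρ σ f) (c : ↥(Z1 ρ LG)) :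
    H1map hφ hf (H1π ρ LG c) = H1π σ LD (Z1map hφ hf c) := rfl
@[simp] lemma H2map_π (hφ : LD.Cont LG φ) (hf : Inter φ ρ σ f) (c : ↥(Z2 ρ LG)) :
    H2map hφ hf (H2π ρ LG c) = H2π σ LD (Z2map hφ hf c) := rfl

end functoriality


section constructions

variable {D : Type*} [Group D]

/-- pull back of a level system along a group homomorphism -/
def Lev.comap (L : Lev G) (φ : D →* G) : Lev D where
  sets := {W | ∃ U ∈ L.sets, W = U.comap φ}
  nonempty := by
    obtain ⟨U, hU⟩ := L.nonempty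
    exact ⟨_, U, hU, rfl⟩
  directed := by
    rintro _ ⟨U, hU, rfl⟩ _ ⟨U', hU', rfl⟩
    obtain ⟨W, hW, h1, h2⟩ := L.directed U hU U' hU'
    exact ⟨_, ⟨W, hW, rfl⟩, Subgroup.comap_mono h1, Subgroup.comap_mono h2⟩
  normal := by
    rintro _ ⟨U, hU, rfl⟩
    obtain ⟨W, hW, h1, h2⟩ := L.normal U hU
    exact ⟨_, ⟨W, hW, rfl⟩, Subgroup.comap_mono h1, h2.comap φ⟩
  finiteIndex := by
    rintro _ ⟨U, hU, rfl⟩
    have := L.finiteIndex U hU
    refine ⟨?_⟩
    rw [Subgroup.index_comap]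
    exact Subgroup.FiniteIndex.index_ne_zero (H := U.subgroupOf φ.range)

/-- the induced level system on a subgroup -/
abbrev Lev.sub (L : Lev G) (H : Subgroup G) : Lev H := L.comap H.subtype

lemma Lev.cont_comap (L : Lev G) (φ : D →* G) : (L.comap φ).Cont L φ :=
  fun U hU => ⟨_, ⟨U, hU, rfl⟩, fun _ h => h⟩

lemma Lev.cont_sub (L : Lev G) (H : Subgroup G) : (L.sub H).Cont L H.subtype := L.cont_comap _

variable {V W : Type*} [AddCommGroup V] [Module k V] [AddCommGroup W] [Module k W]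

/-- restriction of a representation along a group homomorphism (`= ρ.comp φ`) -/
abbrev resRep (φ : D →* G) (ρ : Representation k G V) : Representation k D V := ρ.comp φ

lemma inter_res (φ : D →* G) (ρ : Representation k G V) :
    Inter φ ρ (resRep φ ρ) LinearMap.id := fun _ _ => rfl

/-- `G`-equivariant linear maps, as a special case of `Inter` -/
abbrev Equi (ρ : Representation k G V) (σ : Representation k G W) (f : V →ₗ[k] W) : Prop :=
  Inter (MonoidHom.id G) ρ σ f

lemma Equi.res {ρ : Representation k G V} {σ : Representation k G W} {f : V →ₗ[k] W}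
    (hf : Equi ρ σ f) (φ : D →* G) : Equi (resRep φ ρ) (resRep φ σ) f := fun d v => hf (φ d) v

lemma Equi.inter {ρ : Representation k G V} {σ : Representation k G W} {f : V →ₗ[k] W}
    (hf : Equi ρ σ f) (φ : D →* G) : Inter φ ρ (resRep φ σ) f := fun d v => hf (φ d) v

/-- restriction maps -/
abbrev H0res (φ : D →* G) (ρ : Representation k G V) : H0 ρ →ₗ[k] H0 (resRep φ ρ) :=
  H0map (inter_res φ ρ)
abbrev H1res {LD : Lev D} {LG : Lev G} {φ : D →* G} (hφ : LD.Cont LG φ)
    (ρ : Representation k G V) : H1 ρ LG →ₗ[k] H1 (resRep φ ρ) LD :=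
  H1map hφ (inter_res φ ρ)
abbrev H2res {LD : Lev D} {LG : Lev G} {φ : D →* G} (hφ : LD.Cont LG φ)
    (ρ : Representation k G V) : H2 ρ LG →ₗ[k] H2 (resRep φ ρ) LD :=
  H2map hφ (inter_res φ ρ)

/-- maps induced by an equivariant map of coefficients -/
abbrev H0f {ρ : Representation k G V} {σ : Representation k G W} {f : V →ₗ[k] W}
    (hf : Equi ρ σ f) : H0 ρ →ₗ[k] H0 σ := H0map hf
abbrev H1f (L : Lev G) {ρ : Representation k G V} {σ : Representation k G W} {f : V →ₗ[k] W}
    (hf : Equi ρ σ f) : H1 ρ L →ₗ[k] H1 σ L := H1map L.cont_id hf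
abbrev H2f (L : Lev G) {ρ : Representation k G V} {σ : Representation k G W} {f : V →ₗ[k] W}
    (hf : Equi ρ σ f) : H2 ρ L →ₗ[k] H2 σ L := H2map L.cont_id hf

/-- The representation on `X → V`, `(g f)(x) = g (f (g⁻¹ x))`, for a `G`-set `X`.
For `X = G ⧸ U` this is `Ind = Coind` of `Res_U V`; with `V = k` trivial it is the permutation
module `k[G/U]`. -/
def funRep (X : Type*) [MulAction G X] (ρ : Representation k G V) :
    Representation k G (X → V) where
  toFun g :=
    { toFun := fun f x => ρ g (f (g⁻¹ • x))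
      map_add' := fun f f' => funext fun x => by simp
      map_smul' := fun r f => funext fun x => by simp }
  map_one' := by ext f x; simp
  map_mul' g h := by ext f x; simp [mul_smul]

@[simp] lemma funRep_apply (X : Type*) [MulAction G X] (ρ : Representation k G V) (g : G)
    (f : X → V) (x : X) : funRep X ρ g f x = ρ g (f (g⁻¹ • x)) := rfl

/-- constant functions `V → (X → V)` -/
def constMap (X : Type*) : V →ₗ[k] (X → V) := LinearMap.pi fun _ => LinearMap.id

@[simp] lemma constMap_apply (X : Type*) (v : V) (x : X) : constMap (k := k) X v x = v := rfl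

lemma equi_constMap (X : Type*) [MulAction G X] (ρ : Representation k G V) :
    Equi ρ (funRep X ρ) (constMap X) := fun _ _ => rfl

/-- the sum map `(X → V) → V` -/
def sumMap (X : Type*) [Fintype X] : (X → V) →ₗ[k] V := ∑ x, LinearMap.proj x

@[simp] lemma sumMap_apply (X : Type*) [Fintype X] (f : X → V) :
    sumMap (k := k) X f = ∑ x, f x := by simp [sumMap]

lemma equi_sumMap (X : Type*) [Fintype X] [MulAction G X] (ρ : Representation k G V) :
    Equi (funRep X ρ) ρ (sumMap X) := fun g f => by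
  simp only [MonoidHom.id_apply, sumMap_apply, funRep_apply, map_sum]
  exact (Fintype.sum_equiv (MulAction.toPerm g⁻¹) _ _ (fun _ => rfl))

/-- post-composition `(X → V) → (X → W)` -/
def postMap (X : Type*) (f : V →ₗ[k] W) : (X → V) →ₗ[k] (X → W) :=
  LinearMap.pi fun x => f ∘ₗ LinearMap.proj x

@[simp] lemma postMap_apply (X : Type*) (f : V →ₗ[k] W) (c : X → V) (x : X) :
    postMap X f c x = f (c x) := rfl

lemma equi_postMap (X : Type*) [MulAction G X] {ρ : Representation k G V}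
    {σ : Representation k G W} {f : V →ₗ[k] W} (hf : Equi ρ σ f) :
    Equi (funRep X ρ) (funRep X σ) (postMap X f) := fun g _ => funext fun _ => hf g _

/-- evaluation at `x` intertwines along the inclusion of any subgroup fixing `x` -/
lemma inter_eval (X : Type*) [MulAction G X] (ρ : Representation k G V) (x : X)
    (φ : D →* G) (hφ : ∀ d, φ d • x = x) :
    Inter φ (funRep X ρ) (resRep φ ρ) (LinearMap.proj x) := fun d f => by
  have : (φ d)⁻¹ • x = x := by rw [inv_smul_eq_iff, hφ]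
  simp [this]

/-- the one dimensional representation attached to a character -/
def chiRep (χ : G →* kˣ) : Representation k G k where
  toFun g := (χ g : k) • LinearMap.id
  map_one' := by ext; simp
  map_mul' g h := by ext; simp [mul_comm]

@[simp] lemma chiRep_apply (χ : G →* kˣ) (g : G) (a : k) : chiRep χ g a = (χ g : k) * a := rfl

/-- `V' = Hom(V, k(χ))`: same formula as the prelude `Rep.dualTwist`. -/
def dualTw (χ : G →* kˣ) (ρ : Representation k G V) : Representation k G (Module.Dual k V) where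
  toFun g :=
    { toFun := fun f => (χ g : k) • (f ∘ₗ ρ g⁻¹)
      map_add' := fun f f' => by simp [LinearMap.add_comp]
      map_smul' := fun r f => by
        ext v
        simp only [LinearMap.smul_apply, LinearMap.comp_apply, RingHom.id_apply, smul_eq_mul]
        ring }
  map_one' := by ext f v; simp
  map_mul' g h := by
    ext f v
    simp only [map_mul, Units.val_mul, mul_inv_rev, LinearMap.coe_mk, AddHom.coe_mk,
      LinearMap.smul_apply, LinearMap.comp_apply, Module.End.mul_apply, smul_eq_mul]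
    ring

@[simp] lemma dualTw_apply (χ : G →* kˣ) (ρ : Representation k G V) (g : G)
    (f : Module.Dual k V) : dualTw χ ρ g f = (χ g : k) • (f ∘ₗ ρ g⁻¹) := rfl

/-- invariants of `V'` are the equivariant maps `V → k(χ)` -/
lemma mem_H0_dualTw_iff (χ : G →* kˣ) (ρ : Representation k G V) (η : Module.Dual k V) :
    η ∈ H0 (dualTw χ ρ) ↔ Equi ρ (chiRep χ) η := by
  constructor
  · intro h g v
    have := congrArg (fun e : Module.Dual k V => e (ρ g v)) (h g)
    simp only [dualTw_apply, LinearMap.smul_apply, LinearMap.comp_apply, smul_eq_mul] at this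
    rw [← Module.End.mul_apply, ← map_mul, inv_mul_cancel, map_one, Module.End.one_apply] at this
    simpa using this.symm
  · intro h g
    ext v
    have := h g (ρ g⁻¹ v)
    simp only [MonoidHom.id_apply, chiRep_apply] at this
    rw [← Module.End.mul_apply, ← map_mul, mul_inv_cancel, map_one, Module.End.one_apply] at this
    simpa using this.symm

/-- the transpose of an equivariant map is equivariant for the twisted duals -/
lemma equi_dualMap (χ : G →* kˣ) {ρ : Representation k G V} {σ : Representation k G W}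
    {f : V →ₗ[k] W} (hf : Equi ρ σ f) : Equi (dualTw χ σ) (dualTw χ ρ) f.dualMap := fun g η => by
  ext v
  have := hf g⁻¹ v
  simp only [MonoidHom.id_apply] at this
  simp [this]

end constructions

end

end Fermat.Agent.CFT.SC
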