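/-
CFT / SC : short exact sequences of smooth representations and the connecting homomorphisms
`δ0 : H⁰(C) → H¹(A)`, `δ1 : H¹(C) → H²(A)` as LINEAR maps, characterised by spec lemmas.
-/
import Fermat.Agent.CFT.SC.Defs

set_option autoImplicit false

namespace Fermat.Agent.CFT.SC

noncomputable section

variable {k : Type*} [CommRing k] {G : Type*} [Group G]

section rel

variable {A B : Type*} [AddCommGroup A] [Module k A] [AddCommGroup B] [Module k B]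

/-- the linear map `A → B ⧸ N` attached to a total linear relation `R ⊆ A × B` which is
single valued modulo `N`. -/
def relMap (R : Submodule k (A × B)) (N : Submodule k B) (tot : ∀ a, ∃ b, (a, b) ∈ R)
    (wd : ∀ b, ((0 : A), b) ∈ R → b ∈ N) : A →ₗ[k] B ⧸ N where
  toFun a := Submodule.Quotient.mk (tot a).choose
  map_add' a a' := by
    rw [← Submodule.Quotient.mk_add, Submodule.Quotient.eq]
    apply wd
    have := R.sub_mem (tot (a + a')).choose_spec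
      (R.add_mem (tot a).choose_spec (tot a').choose_spec)
    simpa using this
  map_smul' r a := by
    rw [RingHom.id_apply, ← Submodule.Quotient.mk_smul, Submodule.Quotient.eq]
    apply wd
    have := R.sub_mem (tot (r • a)).choose_spec (R.smul_mem r (tot a).choose_spec)
    simpa using this

lemma relMap_spec (R : Submodule k (A × B)) (N : Submodule k B) (tot : ∀ a, ∃ b, (a, b) ∈ R)
    (wd : ∀ b, ((0 : A), b) ∈ R → b ∈ N) {a : A} {b : B} (h : (a, b) ∈ R) :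
    relMap R N tot wd a = Submodule.Quotient.mk b := by
  show Submodule.Quotient.mk (tot a).choose = _
  rw [Submodule.Quotient.eq]
  apply wd
  have := R.sub_mem (tot a).choose_spec h
  simpa using this

end rel

section smooth

variable {V : Type*} [AddCommGroup V] [Module k V] {ρ : Representation k G V} {L : Lev G}

lemma LC1.finite_range {X : Type*} {f : G → X} (hf : LC1 L f) : (Set.range f).Finite := by
  obtain ⟨U, hU, h⟩ := hf
  have := L.finiteIndex U hU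
  have hfin : (Set.range (fun q : G ⧸ U => f q.out)).Finite := Set.finite_range _
  refine hfin.subset ?_
  rintro _ ⟨g, rfl⟩
  obtain ⟨u, hu⟩ := QuotientGroup.mk_out_eq_mul U g
  exact ⟨(g : G ⧸ U), by simp only [hu]; exact h g u u.2⟩

lemma LC2.finite_range {X : Type*} {f : G × G → X} (hf : LC2 L f) : (Set.range f).Finite := by
  obtain ⟨U, hU, h⟩ := hf
  have := L.finiteIndex U hU
  have hfin : (Set.range (fun q : (G ⧸ U) × (G ⧸ U) => f (q.1.out, q.2.out))).Finite :=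
    Set.finite_range _
  refine hfin.subset ?_
  rintro _ ⟨⟨g, g'⟩, rfl⟩
  obtain ⟨u, hu⟩ := QuotientGroup.mk_out_eq_mul U g
  obtain ⟨u', hu'⟩ := QuotientGroup.mk_out_eq_mul U g'
  exact ⟨((g : G ⧸ U), (g' : G ⧸ U)), by simp only [hu, hu']; exact h g g' u u' u.2 u'.2⟩

/-- a finite set of vectors of a smooth representation is fixed by a level -/
lemma IsSmooth.exists_level (hρ : IsSmooth ρ L) {s : Set V} (hs : s.Finite) :
    ∃ W ∈ L.sets, ∀ w ∈ W, ∀ v ∈ s, ρ w v = v := by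
  induction s, hs using Set.Finite.induction_on with
  | empty =>
    obtain ⟨U, hU⟩ := L.nonempty
    exact ⟨U, hU, fun _ _ _ h => absurd h (Set.notMem_empty _)⟩
  | @insert a s _ _ ih =>
    obtain ⟨W, hW, h⟩ := ih
    obtain ⟨W', hW', h'⟩ := hρ a
    obtain ⟨W'', hW'', h1, h2⟩ := L.directed W hW W' hW'
    refine ⟨W'', hW'', fun w hw v hv => ?_⟩
    rcases hv with rfl | hv
    · exact h' w (h2 hw)
    · exact h w (h1 hw) v hv

lemma IsSmooth.d0_mem_C1 (hρ : IsSmooth ρ L) (m : V) : d0 ρ m ∈ C1 k L V := by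
  obtain ⟨U, hU, h⟩ := hρ m
  exact ⟨U, hU, fun g s hs => by simp [h s hs]⟩

lemma IsSmooth.B1_le_Z1 (hρ : IsSmooth ρ L) : B1 ρ ≤ Z1 ρ L := by
  rintro _ ⟨m, rfl⟩
  exact ⟨d1_d0 ρ m, hρ.d0_mem_C1 m⟩

/-- `d1` of a level constant cochain is level constant -/
lemma IsSmooth.d1_mem_C2 (hρ : IsSmooth ρ L) {b : G → V} (hb : b ∈ C1 k L V) :
    d1 ρ b ∈ C2 k L V := by
  obtain ⟨W, hW, hWfix⟩ := hρ.exists_level (LC1.finite_range hb)
  obtain ⟨U, hU, h⟩ := hb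
  obtain ⟨W₁, hW₁, h1, h2⟩ := L.directed U hU W hW
  obtain ⟨N, hN, hNW, hNn⟩ := L.normal W₁ hW₁
  refine ⟨N, hN, fun g g' s s' hs hs' => ?_⟩
  have e1 : b (g' * s') = b g' := h _ _ (h1 (hNW hs'))
  have e2 : b (g * s) = b g := h _ _ (h1 (hNW hs))
  have e3 : ρ (g * s) (b g') = ρ g (b g') := by
    rw [map_mul, Module.End.mul_apply, hWfix s (h2 (hNW hs)) _ ⟨g', rfl⟩]
  have e4 : b (g * s * (g' * s')) = b (g * g') := by
    have : g * s * (g' * s') = g * g' * ((g'⁻¹ * s * g') * s') := by group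
    rw [this]
    refine h _ _ (h1 (hNW (N.mul_mem ?_ hs')))
    have := hNn.conj_mem s hs g'⁻¹
    simpa using this
  simp only [d1_apply, e1, e2, e3, e4]

lemma IsSmooth.B2_le_Z2 (hρ : IsSmooth ρ L) : B2 ρ L ≤ Z2 ρ L := by
  rintro _ ⟨b, hb, rfl⟩
  exact ⟨d2_d1 ρ b, hρ.d1_mem_C2 hb⟩

end smooth

section ses

variable {V₁ V₂ V₃ : Type*} [AddCommGroup V₁] [Module k V₁] [AddCommGroup V₂] [Module k V₂]
  [AddCommGroup V₃] [Module k V₃]

/-- a short exact sequence `0 → V₁ → V₂ → V₃ → 0` of representations of `G` -/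
structure SES (ρ₁ : Representation k G V₁) (ρ₂ : Representation k G V₂)
    (ρ₃ : Representation k G V₃) (i : V₁ →ₗ[k] V₂) (π : V₂ →ₗ[k] V₃) : Prop where
  hi : Equi ρ₁ ρ₂ i
  hπ : Equi ρ₂ ρ₃ π
  inj : Function.Injective i
  surj : Function.Surjective π
  exact : Function.Exact i π

variable {ρ₁ : Representation k G V₁} {ρ₂ : Representation k G V₂} {ρ₃ : Representation k G V₃}
  {i : V₁ →ₗ[k] V₂} {π : V₂ →ₗ[k] V₃}

lemma SES.comp_eq_zero (E : SES ρ₁ ρ₂ ρ₃ i π) (v : V₁) : π (i v) = 0 :=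
  (E.exact _).2 ⟨v, rfl⟩

/-- a function with values in `ker π` factors through `i`, keeping level constancy -/
lemma SES.exists_lift {X : Type*} (E : SES ρ₁ ρ₂ ρ₃ i π) (b : X → V₂) (hb : ∀ x, π (b x) = 0) :
    ∀ x, i (Function.invFun i (b x)) = b x := fun x =>
  Function.invFun_eq ((E.exact _).1 (hb x))

variable (L : Lev G)

/-- the relation defining `δ0` -/
def δ0Rel (ρ₁ : Representation k G V₁) (ρ₂ : Representation k G V₂)
    (ρ₃ : Representation k G V₃) (i : V₁ →ₗ[k] V₂) (π : V₂ →ₗ[k] V₃) :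
    Submodule k (↥(H0 ρ₃) × ↥(Z1 ρ₁ L)) where
  carrier := {x | ∃ m : V₂, π m = x.1 ∧ ∀ g, i ((x.2 : G → V₁) g) = ρ₂ g m - m}
  add_mem' := by
    rintro x y ⟨m, h1, h2⟩ ⟨m', h1', h2'⟩
    refine ⟨m + m', by simp [h1, h1'], fun g => ?_⟩
    simp only [Prod.snd_add, Submodule.coe_add, Pi.add_apply, map_add, h2, h2']
    abel
  zero_mem' := ⟨0, by simp, fun g => by simp⟩
  smul_mem' := by
    rintro r x ⟨m, h1, h2⟩
    refine ⟨r • m, by simp [h1], fun g => ?_⟩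
    simp only [Prod.smul_snd, Submodule.coe_smul, Pi.smul_apply, map_smul, h2, smul_sub]

/-- the relation defining `δ1` -/
def δ1Rel (ρ₁ : Representation k G V₁) (ρ₂ : Representation k G V₂)
    (ρ₃ : Representation k G V₃) (i : V₁ →ₗ[k] V₂) (π : V₂ →ₗ[k] V₃) :
    Submodule k (↥(Z1 ρ₃ L) × ↥(Z2 ρ₁ L)) where
  carrier := {x | ∃ b : G → V₂, LC1 L b ∧ (∀ g, π (b g) = (x.1 : G → V₃) g) ∧
    ∀ p, i ((x.2 : G × G → V₁) p) = d1 ρ₂ b p}
  add_mem' := by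
    rintro x y ⟨b, h0, h1, h2⟩ ⟨b', h0', h1', h2'⟩
    refine ⟨b + b', (C1 k L V₂).add_mem h0 h0', fun g => by simp [h1, h1'], fun p => ?_⟩
    simp only [Prod.snd_add, Submodule.coe_add, Pi.add_apply, map_add, h2, h2']
  zero_mem' := ⟨0, (C1 k L V₂).zero_mem, fun g => by simp, fun p => by simp⟩
  smul_mem' := by
    rintro r x ⟨b, h0, h1, h2⟩
    refine ⟨r • b, (C1 k L V₂).smul_mem r h0, fun g => by simp [h1], fun p => ?_⟩
    simp only [Prod.smul_snd, Submodule.coe_smul, Pi.smul_apply, map_smul, h2]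

variable {L}

lemma δ0Rel_total (E : SES ρ₁ ρ₂ ρ₃ i π) (h₂ : IsSmooth ρ₂ L) (c : ↥(H0 ρ₃)) :
    ∃ z, (c, z) ∈ δ0Rel L ρ₁ ρ₂ ρ₃ i π := by
  obtain ⟨m, hm⟩ := E.surj c
  have hker : ∀ g, π (d0 ρ₂ m g) = 0 := fun g => by
    have := E.hπ g m
    simp only [MonoidHom.id_apply] at this
    rw [d0_apply, map_sub, this, hm, c.2 g, sub_self]
  have hz := E.exists_lift _ hker
  refine ⟨⟨fun g => Function.invFun i (d0 ρ₂ m g), ?_,
    LC1.comp (h₂.d0_mem_C1 m) (Function.invFun i)⟩, m, hm, hz⟩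
  show d1 ρ₁ _ = 0
  funext ⟨g, h⟩
  apply E.inj
  have hi := E.hi g
  simp only [MonoidHom.id_apply] at hi
  have := congrFun (d1_d0 ρ₂ m) (g, h)
  simp only [d1_apply, map_add, map_sub, hi, hz, Pi.zero_apply, map_zero] at this ⊢
  exact this

lemma δ0Rel_wd (E : SES ρ₁ ρ₂ ρ₃ i π) (z : ↥(Z1 ρ₁ L))
    (h : ((0 : ↥(H0 ρ₃)), z) ∈ δ0Rel L ρ₁ ρ₂ ρ₃ i π) :
    z ∈ (B1 ρ₁).comap (Z1 ρ₁ L).subtype := by
  obtain ⟨m, hm, hz⟩ := h
  obtain ⟨a, rfl⟩ := (E.exact m).1 (by simpa using hm)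
  refine (mem_B1_iff _).2 ⟨a, fun g => E.inj ?_⟩
  have hi := E.hi g a
  simp only [MonoidHom.id_apply] at hi
  simp only [Submodule.subtype_apply, map_sub, hi]
  exact hz g

/-- the connecting homomorphism `H⁰(V₃) → H¹(V₁)` -/
def δ0 (E : SES ρ₁ ρ₂ ρ₃ i π) (h₂ : IsSmooth ρ₂ L) : H0 ρ₃ →ₗ[k] H1 ρ₁ L :=
  relMap (δ0Rel L ρ₁ ρ₂ ρ₃ i π) _ (δ0Rel_total E h₂) (δ0Rel_wd E)

/-- SPEC of `δ0`: for ANY lift `m` of `c` and any cocycle `z` with `i ∘ z = d0 m`. -/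
lemma δ0_spec (E : SES ρ₁ ρ₂ ρ₃ i π) (h₂ : IsSmooth ρ₂ L) (c : ↥(H0 ρ₃)) (m : V₂)
    (hm : π m = c) (z : ↥(Z1 ρ₁ L)) (hz : ∀ g, i ((z : G → V₁) g) = ρ₂ g m - m) :
    δ0 E h₂ c = H1π ρ₁ L z :=
  relMap_spec _ _ _ _ ⟨m, hm, hz⟩

/-- every value of `δ0` is computed by some lift -/
lemma δ0_exists (E : SES ρ₁ ρ₂ ρ₃ i π) (h₂ : IsSmooth ρ₂ L) (c : ↥(H0 ρ₃)) :
    ∃ (m : V₂) (z : ↥(Z1 ρ₁ L)), π m = c ∧ (∀ g, i ((z : G → V₁) g) = ρ₂ g m - m) ∧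
      δ0 E h₂ c = H1π ρ₁ L z := by
  obtain ⟨z, m, hm, hz⟩ := δ0Rel_total E h₂ c
  exact ⟨m, z, hm, hz, δ0_spec E h₂ c m hm z hz⟩

lemma δ1Rel_total (E : SES ρ₁ ρ₂ ρ₃ i π) (h₂ : IsSmooth ρ₂ L) (c : ↥(Z1 ρ₃ L)) :
    ∃ z, (c, z) ∈ δ1Rel L ρ₁ ρ₂ ρ₃ i π := by
  set b : G → V₂ := fun g => Function.surjInv E.surj ((c : G → V₃) g) with hb
  have hbL : LC1 L b := LC1.comp c.2.2 (Function.surjInv E.surj)
  have hπb : ∀ g, π (b g) = (c : G → V₃) g := fun g => Function.surjInv_eq E.surj _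
  have hker : ∀ p, π (d1 ρ₂ b p) = 0 := by
    rintro ⟨g, h⟩
    have hπ := E.hπ g
    simp only [MonoidHom.id_apply] at hπ
    have := congrFun (LinearMap.mem_ker.1 c.2.1) (g, h)
    simp only [d1_apply, map_add, map_sub, hπ, hπb, Pi.zero_apply] at this ⊢
    exact this
  have hz := E.exists_lift _ hker
  refine ⟨⟨fun p => Function.invFun i (d1 ρ₂ b p), ?_,
    LC2.comp (h₂.d1_mem_C2 hbL) (Function.invFun i)⟩, b, hbL, hπb, hz⟩
  show d2 ρ₁ _ = 0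
  funext ⟨g, h, j⟩
  apply E.inj
  have hi := E.hi g
  simp only [MonoidHom.id_apply] at hi
  have := congrFun (d2_d1 ρ₂ b) (g, h, j)
  simp only [d2_apply, map_add, map_sub, hi, hz, Pi.zero_apply, map_zero] at this ⊢
  exact this

/-- key lemma: if `c` is a coboundary then `z` is a coboundary of a level constant cochain -/
lemma δ1Rel_B (E : SES ρ₁ ρ₂ ρ₃ i π) (h₂ : IsSmooth ρ₂ L) (c : ↥(Z1 ρ₃ L)) (z : ↥(Z2 ρ₁ L))
    (h : (c, z) ∈ δ1Rel L ρ₁ ρ₂ ρ₃ i π) (hc : (c : G → V₃) ∈ B1 ρ₃) :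
    (z : G × G → V₁) ∈ B2 ρ₁ L := by
  obtain ⟨b, hbL, hπb, hz⟩ := h
  obtain ⟨m₃, hm₃⟩ := hc
  obtain ⟨m, rfl⟩ := E.surj m₃
  have hbL' : LC1 L (b - d0 ρ₂ m) := (C1 k L V₂).sub_mem hbL (h₂.d0_mem_C1 m)
  have hker : ∀ g, π ((b - d0 ρ₂ m) g) = 0 := fun g => by
    have hπ := E.hπ g m
    simp only [MonoidHom.id_apply] at hπ
    have := congrFun hm₃ g
    simp only [d0_apply] at this
    simp only [Pi.sub_apply, d0_apply, map_sub, hπb, hπ, ← this, sub_self]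
  have ha := E.exists_lift _ hker
  refine (mem_B2_iff _).2 ⟨fun g => Function.invFun i ((b - d0 ρ₂ m) g),
    LC1.comp hbL' (Function.invFun i), ?_⟩
  funext ⟨g, h⟩
  apply E.inj
  have hi := E.hi g
  simp only [MonoidHom.id_apply] at hi
  have h0 := congrFun (d1_d0 ρ₂ m) (g, h)
  rw [hz]
  simp only [d1_apply, map_add, map_sub, hi, ha]
  simp only [d1_apply, Pi.sub_apply, Pi.zero_apply, map_sub] at h0 ⊢
  rw [← sub_eq_zero]
  rw [← neg_eq_zero, ← h0]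
  abel

/-- the connecting homomorphism `H¹(V₃) → H²(V₁)` -/
def δ1 (E : SES ρ₁ ρ₂ ρ₃ i π) (h₂ : IsSmooth ρ₂ L) : H1 ρ₃ L →ₗ[k] H2 ρ₁ L :=
  Submodule.liftQ _
    (relMap (δ1Rel L ρ₁ ρ₂ ρ₃ i π) _ (δ1Rel_total E h₂)
      (fun z hz => Submodule.mem_comap.2 (δ1Rel_B E h₂ 0 z hz (B1 ρ₃).zero_mem)))
    (fun c hc => by
      obtain ⟨z, hz⟩ := δ1Rel_total E h₂ c
      rw [LinearMap.mem_ker, relMap_spec _ _ _ _ hz]
      exact (H2π_eq_zero_iff z).2 (δ1Rel_B E h₂ c z hz hc))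

/-- SPEC of `δ1`: for ANY level constant lift `b` of the cocycle `c` and any `z` with
`i ∘ z = d1 b`. -/
lemma δ1_spec (E : SES ρ₁ ρ₂ ρ₃ i π) (h₂ : IsSmooth ρ₂ L) (c : ↥(Z1 ρ₃ L)) (b : G → V₂)
    (hb : LC1 L b) (hπb : ∀ g, π (b g) = (c : G → V₃) g) (z : ↥(Z2 ρ₁ L))
    (hz : ∀ p, i ((z : G × G → V₁) p) = d1 ρ₂ b p) :
    δ1 E h₂ (H1π ρ₃ L c) = H2π ρ₁ L z :=
  relMap_spec (δ1Rel L ρ₁ ρ₂ ρ₃ i π) _ (δ1Rel_total E h₂)
    (fun z hz => Submodule.mem_comap.2 (δ1Rel_B E h₂ 0 z hz (B1 ρ₃).zero_mem)) ⟨b, hb, hπb, hz⟩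

/-- every value of `δ1` is computed by some lift -/
lemma δ1_exists (E : SES ρ₁ ρ₂ ρ₃ i π) (h₂ : IsSmooth ρ₂ L) (c : ↥(Z1 ρ₃ L)) :
    ∃ (b : G → V₂) (z : ↥(Z2 ρ₁ L)), LC1 L b ∧ (∀ g, π (b g) = (c : G → V₃) g) ∧
      (∀ p, i ((z : G × G → V₁) p) = d1 ρ₂ b p) ∧ δ1 E h₂ (H1π ρ₃ L c) = H2π ρ₁ L z := by
  obtain ⟨z, b, hb, hπb, hz⟩ := δ1Rel_total E h₂ c
  exact ⟨b, z, hb, hπb, hz, δ1_spec E h₂ c b hb hπb z hz⟩

end ses

end

end Fermat.Agent.CFT.SC
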